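/-
S55 / 32c-SECOND-INEQ-INST, K-side (helper57): hypotheses (H4) `htame`, `hroot` of
`SecondIneq74.relIndex_sup_dvd` for the place model `SecondInst53.PlaceModel`, with the literal
binders, and the tame local index `(K_vˣ : K_vˣᵖ) = p²`.
-/
import Mathlib
import Fermat.Agent.S55.SecondInst53.PlaceModel
import Fermat.Agent.S55.LocPowLF39
import Fermat.Agent.S55.LocDegSum39

set_option autoImplicit false

open IsDedekindDomain NumberField

noncomputable section

namespace Fermat.Agent.S55.SecondInst57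

open Fermat.Agent.S55.LocField17 Fermat.Agent.S55.SecondInst53.PlaceModel
  Fermat.Agent.S55.SecondIneq74

variable {K : Type*} [Field K] [NumberField K] (D : PlaceData K)

instance finiteDimensional_locField (v : HeightOneSpectrum (𝓞 K)) :
    FiniteDimensional ℚ_[D.ℓ v] (D.locField v) :=
  LocDegSum39.finiteDimensional_locField (D.ℓ v) (D.σ v)

variable (p : ℕ) [hp : Fact p.Prime]

/-- at a place not above `p` the residue characteristic is not `p`. -/
theorem ne_of_notMem {v : HeightOneSpectrum (𝓞 K)} (hv : ((p : ℕ) : 𝓞 K) ∉ v.asIdeal) :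
    p ≠ D.ℓ v := by
  intro h
  apply hv
  rw [h]
  exact D.natCast_mem v

theorem not_dvd_of_notMem {v : HeightOneSpectrum (𝓞 K)} (hv : ((p : ℕ) : 𝓞 K) ∉ v.asIdeal) :
    ¬ D.ℓ v ∣ p := by
  intro h
  have h1 := (Nat.prime_dvd_prime_iff_eq (D.prime v).out hp.out).mp h
  exact ne_of_notMem D p hv h1.symm

/-- the image of a primitive root in a local field. -/
theorem isPrimitiveRoot_toLocField (v : HeightOneSpectrum (𝓞 K)) {ζ : K} {n : ℕ}
    (hζ : IsPrimitiveRoot ζ n) : IsPrimitiveRoot (D.toLocField v ζ) n :=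
  hζ.map_of_injective (D.toLocField v).injective

/-- the norm-one units are the units of the ring of integers. -/
theorem unitBall_eq_unitsO (v : HeightOneSpectrum (𝓞 K)) :
    unitBall D v = LocPow39.unitsO (O := intRing (D.locField v)) (D.locField v) := by
  ext u
  rw [mem_unitBall_iff]
  constructor
  · intro h
    have hmem : (u : D.locField v) ∈ intRing (D.locField v) := mem_intRing.mpr h.le
    have hunit : IsUnit (⟨(u : D.locField v), hmem⟩ : intRing (D.locField v)) :=
      (LocField17.isUnit_iff _).mpr h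
    refine ⟨hunit.unit, ?_⟩
    apply Units.ext
    rfl
  · rintro ⟨w, rfl⟩
    exact (LocField17.isUnit_iff (w : intRing (D.locField v))).mp w.isUnit

/-- root closure of the norm-one units (any exponent `n ≠ 0`). -/
theorem mem_unitBall_of_pow (v : HeightOneSpectrum (𝓞 K)) {n : ℕ} (hn : n ≠ 0)
    {z : (D.locField v)ˣ} (hz : z ^ n ∈ unitBall D v) : z ∈ unitBall D v := by
  rw [mem_unitBall_iff] at hz ⊢
  rw [Units.val_pow_eq_pow_val, SubmonoidClass.coe_pow, norm_pow] at hz
  exact (pow_eq_one_iff_of_nonneg (norm_nonneg _) hn).mp hz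

/-- the `p`-th powers which are units are the `p`-th powers of units. -/
theorem range_pow_subgroupOf_unitBall (v : HeightOneSpectrum (𝓞 K)) :
    ((powMonoidHom p : (D.locField v)ˣ →* (D.locField v)ˣ).range).subgroupOf (unitBall D v) =
      (powMonoidHom p : unitBall D v →* unitBall D v).range := by
  ext u
  rw [Subgroup.mem_subgroupOf]
  constructor
  · rintro ⟨z, hz⟩
    have hz' : z ^ p = (u : (D.locField v)ˣ) := hz
    have hzU : z ∈ unitBall D v :=
      mem_unitBall_of_pow D v hp.out.ne_zero (by rw [hz']; exact u.2)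
    exact ⟨⟨z, hzU⟩, Subtype.ext hz'⟩
  · rintro ⟨z, rfl⟩
    exact ⟨(z : (D.locField v)ˣ), rfl⟩

/-- `(U_v : U_vᵖ) = p` at a finite place `v ∤ p`, if `μ_p ⊆ K`. -/
theorem relIndex_range_pow_unitBall {ζ : K} (hζ : IsPrimitiveRoot ζ p)
    {v : HeightOneSpectrum (𝓞 K)} (hv : ((p : ℕ) : 𝓞 K) ∉ v.asIdeal) :
    ((powMonoidHom p : (D.locField v)ˣ →* (D.locField v)ˣ).range).relIndex (unitBall D v) = p := by
  haveI : NeZero p := ⟨hp.out.ne_zero⟩
  rw [Subgroup.relIndex, range_pow_subgroupOf_unitBall]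
  have h1 : (powMonoidHom p : unitBall D v →* unitBall D v).range.index =
      (powMonoidHom p : (intRing (D.locField v))ˣ →* (intRing (D.locField v))ˣ).range.index := by
    rw [← LocPow39.index_range_pow_unitsO (O := intRing (D.locField v)) (D.locField v) p]
    have hU := unitBall_eq_unitsO D v
    -- transport along the equality of subgroups
    have key : ∀ (H₁ H₂ : Subgroup (D.locField v)ˣ), H₁ = H₂ →
        (powMonoidHom p : H₁ →* H₁).range.index = (powMonoidHom p : H₂ →* H₂).range.index := by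
      rintro H₁ _ rfl
      rfl
    exact key _ _ hU
  rw [h1]
  have h2 := LocPow39.index_range_pow (O := intRing (D.locField v)) (p := p)
  rw [LocPowLF39.card_quot_of_ne (D.locField v) p (ne_of_notMem D p hv), mul_one,
    ← LocPow39.card_rootsOfUnity_eq (O := intRing (D.locField v)) (D.locField v) p,
    (isPrimitiveRoot_toLocField D v hζ).card_rootsOfUnity] at h2
  exact h2

/-- `(K_vˣ : K_vˣᵖ) = p²` at a finite place `v ∤ p`, if `μ_p ⊆ K`. -/
theorem index_range_pow_of_notMem {ζ : K} (hζ : IsPrimitiveRoot ζ p)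
    {v : HeightOneSpectrum (𝓞 K)} (hv : ((p : ℕ) : 𝓞 K) ∉ v.asIdeal) :
    ((powMonoidHom p : (D.locField v)ˣ →* (D.locField v)ˣ).range).index = p ^ 2 := by
  rw [Subgroup.index_eq_card]
  exact LocPowLF39.card_units_quot_pow_of_ne_of_primitiveRoot (D.locField v) p
    (ne_of_notMem D p hv) (isPrimitiveRoot_toLocField D v hζ)

/-! ### the literal hypotheses of `relIndex_sup_dvd` -/

/-- **(H4) `hroot`** of `SecondIneq74.relIndex_sup_dvd` for the place model. -/
theorem hroot : ∀ v ∈ tame (K := K) p, ∀ z : A D v, z ^ p ∈ U D v → z ∈ U D v := by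
  rintro _ ⟨v, rfl, -⟩ z hz
  exact mem_unitBall_of_pow D v hp.out.ne_zero hz

/-- **(H4) `htame`** of `SecondIneq74.relIndex_sup_dvd` for the place model (`μ_p ⊆ K`). -/
theorem htame {ζ : K} (hζ : IsPrimitiveRoot ζ p) :
    ∀ v ∈ tame (K := K) p, (Pw (A D) p v).relIndex (U D v) = p := by
  rintro _ ⟨v, rfl, hv⟩
  exact relIndex_range_pow_unitBall D p hζ hv

/-- the tame factors of **(H3) `hprod`**. -/
theorem index_Pw_of_tame {ζ : K} (hζ : IsPrimitiveRoot ζ p) :
    ∀ v ∈ tame (K := K) p, (Pw (A D) p v).index = p ^ 2 := by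
  rintro _ ⟨v, rfl, hv⟩
  exact index_range_pow_of_notMem D p hζ hv

/-- the dummy factors of **(H3) `hprod`**. -/
theorem index_Pw_inr (w : InfinitePlace K) : (Pw (A D) p (Sum.inr w)).index = 1 := by
  rw [Subgroup.index_eq_one, eq_top_iff]
  intro x _
  exact ⟨1, Subsingleton.elim (α := PUnit) _ _⟩

end Fermat.Agent.S55.SecondInst57
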