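/-
S55 / 32c-SECOND-INEQ-INST, K-side (helper57): hypothesis **`hCL`** of
`SecondIneq74.relIndex_sup_dvd` for the place model `SecondInst53.PlaceModel`:
`CL (A D) (ι D) p` for a number field `K ∋ ζ_p`, from the auxiliary primes
`AuxPrimes57.exists_prime_cl` (density package of S14, no first inequality) and the Hensel bridge
`LocBridge57` (residue form ↔ `p`-th power in the local field `K_w`).
-/
import Mathlib
import Fermat.Agent.S55.SecondInst57.Tame
import Fermat.Agent.S55.LocBridge57.Hensel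
import Fermat.Agent.S55.LocBridge57.Density
import Fermat.Agent.S55.AuxPrimes57.CL

set_option autoImplicit false

open IsDedekindDomain NumberField

noncomputable section

namespace Fermat.Agent.S55.SecondInst57

open Fermat.Agent.S55.LocField17 Fermat.Agent.S55.SecondInst53.PlaceModel
  Fermat.Agent.S55.SecondIneq74 Fermat.Agent.S55.LocBridge57 Fermat.Agent.S55.AuxPrimes57

variable {K : Type*} [Field K] [NumberField K] (D : PlaceData K)

theorem σ_mem_locField (v : HeightOneSpectrum (𝓞 K)) (x : K) : D.σ v x ∈ D.locField v :=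
  IntermediateField.subset_adjoin _ _ ⟨x, rfl⟩

/-- density of `σ_v K` in `K_v`. -/
theorem exists_norm_sub_σ_lt (v : HeightOneSpectrum (𝓞 K)) (z : D.locField v) (ε : ℝ)
    (hε : 0 < ε) : ∃ y : K, ‖(z : PadicAlgCl (D.ℓ v)) - D.σ v y‖ < ε :=
  exists_norm_sub_lt_of_mem_adjoin (D.σ v) z.2 hε

variable (p : ℕ) [hp : Fact p.Prime]

/-- membership in the `p`-th powers of `(K_v)ˣ`, elementwise. -/
theorem ιf_mem_range_pow_iff (v : HeightOneSpectrum (𝓞 K)) (x : Kˣ) :
    ιf D v x ∈ (powMonoidHom p : (D.locField v)ˣ →* (D.locField v)ˣ).range ↔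
      ∃ z : D.locField v, (z : PadicAlgCl (D.ℓ v)) ^ p = D.σ v (x : K) := by
  constructor
  · rintro ⟨z, hz⟩
    refine ⟨(z : D.locField v), ?_⟩
    have h1 : ((z ^ p : (D.locField v)ˣ) : D.locField v) = (ιf D v x : (D.locField v)ˣ) := by
      rw [← hz]; rfl
    have h2 := congrArg (fun t : D.locField v => (t : PadicAlgCl (D.ℓ v))) h1
    simpa using h2
  · rintro ⟨z, hz⟩
    have hx0 : D.σ v (x : K) ≠ 0 := (map_ne_zero _).mpr x.ne_zero
    have hz0 : z ≠ 0 := by
      rintro rfl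
      rw [ZeroMemClass.coe_zero, zero_pow hp.out.ne_zero] at hz
      exact hx0 hz.symm
    refine ⟨Units.mk0 z hz0, ?_⟩
    apply Units.ext
    apply Subtype.ext
    show ((Units.mk0 z hz0 ^ p : (D.locField v)ˣ) : D.locField v).1 = D.σ v (x : K)
    rw [Units.val_pow_eq_pow_val, Units.val_mk0, SubmonoidClass.coe_pow]
    exact hz

/-- **Hensel bridge on the place model**: at a finite place `w ∤ p`, a `w`-unit `x` of `K` is a
`p`-th power in `(K_w)ˣ` iff it is a `p`-th power residue modulo `w`. -/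
theorem ιf_mem_range_pow_iff_isPowRes {w : HeightOneSpectrum (𝓞 K)}
    (hw : ((p : ℕ) : 𝓞 K) ∉ w.asIdeal) (x : Kˣ) (hx : w.valuation K (x : K) = 1) :
    ιf D w x ∈ (powMonoidHom p : (D.locField w)ˣ →* (D.locField w)ˣ).range ↔
      IsPowRes p w (x : K) := by
  rw [ιf_mem_range_pow_iff]
  have hx1 : ‖D.σ w (x : K)‖ = 1 := (D.eq_one_iff w _).mp hx
  constructor
  · rintro ⟨z, hz⟩
    obtain ⟨y, hy⟩ := exists_norm_sub_pow_lt_of_pow_eq (D.σ w) (D.locField w)
      (exists_norm_sub_σ_lt D w) p hp.out.ne_zero hx1 hz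
    exact ⟨y, (D.lt_one_iff w _).mpr hy⟩
  · rintro ⟨y, hy⟩
    exact exists_pow_eq_of_norm_sub_pow_lt (D.σ w) (D.locField w) (σ_mem_locField D w) p
      (not_dvd_of_notMem D p hw) hx1 ((D.lt_one_iff w _).mp hy)

/-- **`hCL`** of `SecondIneq74.relIndex_sup_dvd` for the place model, `μ_p ⊆ K`
(`K : Type`, universe `0`, as in the S14 density package behind `exists_prime_cl`). -/
theorem hCL {K : Type} [Field K] [NumberField K] (D : PlaceData K) (p : ℕ) [Fact p.Prime]
    {ζ : K} (hζ : IsPrimitiveRoot ζ p) : CL (A D) (ι D) p := by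
  intro a b hb S₀
  have hE : {w : HeightOneSpectrum (𝓞 K) | (Sum.inl w : V K) ∈ S₀}.Finite :=
    Set.Finite.preimage (Sum.inl_injective.injOn) S₀.finite_toSet
  obtain ⟨w, hwE, hwp, -, hwa, hwb, hres, hnres⟩ := exists_prime_cl hζ a b hb _ hE
  refine ⟨Sum.inl w, hwE, ?_, ?_⟩
  · exact (ιf_mem_range_pow_iff_isPowRes D p hwp a hwa).mpr hres
  · intro h
    exact hnres ((ιf_mem_range_pow_iff_isPowRes D p hwp b hwb).mp h)

end Fermat.Agent.S55.SecondInst57
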