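/-
S55 / 32c-SECOND-INEQ-INST, K-side (helper57): hypothesis (H3) **`hprod`** of
`SecondIneq74.relIndex_sup_dvd` for the place model `SecondInst53.PlaceModel`:
`∏ v ∈ S, (K_vˣ : K_vˣᵖ) = p ^ (2 |S|)` for every finite `S` containing the places above `p` and
all (dummy) infinite places, if `ζ_p ∈ K`, `p` odd.

The only global input is the degree formula `Σ_{v | p} [K_v : ℚ_p] = [K : ℚ]` for the chosen
embeddings (`DegreeFormula D p`; it follows from `LocDegSum39.sum_finrank_locField'` and the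
dictionary places ↔ `G_p`-orbits of embeddings).
-/
import Mathlib
import Fermat.Agent.S55.SecondInst57.Tame

set_option autoImplicit false

open IsDedekindDomain NumberField Module

noncomputable section

namespace Fermat.Agent.S55.SecondInst57

open Fermat.Agent.S55.LocField17 Fermat.Agent.S55.SecondInst53.PlaceModel
  Fermat.Agent.S55.SecondIneq74

variable {K : Type*} [Field K] [NumberField K] (D : PlaceData K) (p : ℕ) [hp : Fact p.Prime]

theorem natCast_ne_zero' : ((p : ℕ) : 𝓞 K) ≠ 0 :=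
  Nat.cast_ne_zero.mpr hp.out.ne_zero

/-- the finite places above `p`. -/
def above : Finset (HeightOneSpectrum (𝓞 K)) :=
  (finite_setOf_mem_asIdeal (K := K) (natCast_ne_zero' (K := K) p)).toFinset

theorem mem_above {v : HeightOneSpectrum (𝓞 K)} :
    v ∈ above (K := K) p ↔ ((p : ℕ) : 𝓞 K) ∈ v.asIdeal := by
  rw [above, Set.Finite.mem_toFinset]
  exact Iff.rfl

/-- a place above `p` has residue characteristic `p`. -/
theorem ℓ_eq_of_mem {v : HeightOneSpectrum (𝓞 K)} (hv : ((p : ℕ) : 𝓞 K) ∈ v.asIdeal) :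
    D.ℓ v = p := by
  by_contra hne
  have hcop : Nat.Coprime (D.ℓ v) p :=
    (Nat.coprime_primes (D.prime v).out hp.out).mpr hne
  -- `1 = a ℓ + b p ∈ v`
  have h1 : ((1 : ℤ) : 𝓞 K) ∈ v.asIdeal := by
    have hb := Nat.gcd_eq_gcd_ab (D.ℓ v) p
    rw [hcop.gcd_eq_one] at hb
    have : ((1 : ℤ) : 𝓞 K) = ((D.ℓ v : ℕ) : 𝓞 K) * ((Nat.gcdA (D.ℓ v) p : ℤ) : 𝓞 K) +
        ((p : ℕ) : 𝓞 K) * ((Nat.gcdB (D.ℓ v) p : ℤ) : 𝓞 K) := by
      have := congrArg (fun z : ℤ => (z : 𝓞 K)) hb
      push_cast at this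
      simpa using this
    rw [this]
    exact v.asIdeal.add_mem (v.asIdeal.mul_mem_right _ (D.natCast_mem v))
      (v.asIdeal.mul_mem_right _ hv)
  rw [Int.cast_one] at h1
  exact v.isPrime.ne_top ((Ideal.eq_top_iff_one _).mpr h1)

/-- **wild local index**: `(K_vˣ : K_vˣᵖ) = p ^ ([K_v : ℚ_p] + 2)` at `v | p`, `μ_p ⊆ K`. -/
theorem index_range_pow_of_mem {ζ : K} (hζ : IsPrimitiveRoot ζ p)
    {v : HeightOneSpectrum (𝓞 K)} (hv : ((p : ℕ) : 𝓞 K) ∈ v.asIdeal) :
    ((powMonoidHom p : (D.locField v)ˣ →* (D.locField v)ˣ).range).index =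
      p ^ (finrank ℚ_[D.ℓ v] (D.locField v) + 2) := by
  have h := ℓ_eq_of_mem D p hv
  subst h
  rw [Subgroup.index_eq_card]
  exact LocPowLF39.card_units_quot_pow_self_of_primitiveRoot (D.locField v)
    (isPrimitiveRoot_toLocField D v hζ)

/-- the local degree `[K_v : ℚ_ℓ]`. -/
def locDeg (v : HeightOneSpectrum (𝓞 K)) : ℕ := finrank ℚ_[D.ℓ v] (D.locField v)

/-- **degree formula** `Σ_{v | p} [K_v : ℚ_p] = [K : ℚ]` for the chosen embeddings. -/
def DegreeFormula : Prop := ∑ v ∈ above (K := K) p, locDeg D v = finrank ℚ K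

open Classical in
/-- uniform formula for the local index at a finite place (`μ_p ⊆ K`). -/
theorem index_Pw_inl {ζ : K} (hζ : IsPrimitiveRoot ζ p) (v : HeightOneSpectrum (𝓞 K)) :
    (Pw (A D) p (Sum.inl v)).index =
      p ^ (2 + if ((p : ℕ) : 𝓞 K) ∈ v.asIdeal then locDeg D v else 0) := by
  by_cases hv : ((p : ℕ) : 𝓞 K) ∈ v.asIdeal
  · rw [if_pos hv, add_comm]
    exact index_range_pow_of_mem D p hζ hv
  · rw [if_neg hv, add_zero]
    exact index_range_pow_of_notMem D p hζ hv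

/-- `[K : ℚ] = 2 · #{infinite places}` when `ζ_p ∈ K`, `p > 2`. -/
theorem finrank_eq_two_mul_card {ζ : K} (hζ : IsPrimitiveRoot ζ p) (hp2 : 2 < p) :
    finrank ℚ K = 2 * Fintype.card (InfinitePlace K) := by
  have h0 := NumberField.InfinitePlace.IsPrimitiveRoot.nrRealPlaces_eq_zero_of_two_lt hp2 hζ
  have h1 := InfinitePlace.card_add_two_mul_card_eq_rank K
  have h2 := InfinitePlace.card_eq_nrRealPlaces_add_nrComplexPlaces K
  rw [h0, zero_add] at h1 h2
  rw [h2, h1]

open Classical in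
/-- **(H3) `hprod`** of `SecondIneq74.relIndex_sup_dvd` for the place model. -/
theorem hprod {ζ : K} (hζ : IsPrimitiveRoot ζ p) (hp2 : 2 < p) (hdeg : DegreeFormula D p)
    (S : Finset (V K)) (hSp : ∀ v : HeightOneSpectrum (𝓞 K), ((p : ℕ) : 𝓞 K) ∈ v.asIdeal →
      (Sum.inl v : V K) ∈ S) (hSinf : ∀ w : InfinitePlace K, (Sum.inr w : V K) ∈ S) :
    ∏ v ∈ S, (Pw (A D) p v).index = p ^ (2 * S.card) := by
  have hS : S = S.toLeft.disjSum S.toRight := Finset.toLeft_disjSum_toRight.symm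
  have hR : S.toRight = Finset.univ := by
    ext w
    simp only [Finset.mem_toRight, Finset.mem_univ, iff_true]
    exact hSinf w
  have hcard : S.card = S.toLeft.card + Fintype.card (InfinitePlace K) := by
    conv_lhs => rw [hS]
    rw [Finset.card_disjSum, hR, Finset.card_univ]
  have hprodS : ∏ v ∈ S, (Pw (A D) p v).index =
      (∏ v ∈ S.toLeft, (Pw (A D) p (Sum.inl v)).index) *
        ∏ w ∈ S.toRight, (Pw (A D) p (Sum.inr w)).index := by
    conv_lhs => rw [hS]
    rw [Finset.prod_disjSum]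
  rw [hprodS, Finset.prod_eq_one (fun w _ => index_Pw_inr D p w), mul_one,
    Finset.prod_congr rfl (fun v _ => index_Pw_inl D p hζ v), Finset.prod_pow_eq_pow_sum,
    Finset.sum_add_distrib, Finset.sum_const, smul_eq_mul, ← Finset.sum_filter]
  have hfilter : S.toLeft.filter (fun v => ((p : ℕ) : 𝓞 K) ∈ v.asIdeal) = above (K := K) p := by
    ext v
    rw [Finset.mem_filter, Finset.mem_toLeft, mem_above]
    exact ⟨fun h => h.2, fun h => ⟨hSp v h, h⟩⟩
  rw [hfilter]
  have hd : ∑ v ∈ above (K := K) p, locDeg D v = finrank ℚ K := hdeg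
  rw [hd, finrank_eq_two_mul_card p hζ hp2, hcard]
  ring_nf

end Fermat.Agent.S55.SecondInst57
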