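/-
S55 / 32c-SECOND-INEQ-INST, K-side (helper57): the degree formula
`Σ_{v | p} [K_v : ℚ_p] = [K : ℚ]` for the place model `SecondInst53.PlaceModel`
(`DegreeFormula D p` of `SecondInst57/Prod.lean`), from the orbit count of helper39
(`EmbConj39.sum_finrank_locField_of_unitBall`) by transporting the chosen embeddings
`D.σ v : K →+* PadicAlgCl (D.ℓ v)` along `D.ℓ v = p`.
-/
import Mathlib
import Fermat.Agent.S55.SecondInst57.Prod
import Fermat.Agent.S55.EmbConj39

set_option autoImplicit false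

open IsDedekindDomain NumberField Module

noncomputable section

namespace Fermat.Agent.S55.SecondInst57

open Fermat.Agent.S55.LocField17 Fermat.Agent.S55.SecondInst53.PlaceModel

variable {K : Type*} [Field K] [NumberField K]

/-- transport of an embedding along an equality of residue characteristics. -/
def castEmb {q p : ℕ} [_hq : Fact q.Prime] [hp : Fact p.Prime] (h : q = p)
    (σ : K →+* PadicAlgCl q) : K →+* PadicAlgCl p := by
  subst h
  exact σ

omit [NumberField K] in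
theorem norm_castEmb {q p : ℕ} [hq : Fact q.Prime] [hp : Fact p.Prime] (h : q = p)
    (σ : K →+* PadicAlgCl q) (x : K) : ‖castEmb h σ x‖ = ‖σ x‖ := by
  subst h
  rfl

omit [NumberField K] in
theorem finrank_locField_castEmb {q p : ℕ} [hq : Fact q.Prime] [hp : Fact p.Prime] (h : q = p)
    (σ : K →+* PadicAlgCl q) :
    finrank ℚ_[p] (LocDegSum39.locField p (castEmb h σ)) =
      finrank ℚ_[q] (IntermediateField.adjoin ℚ_[q] (Set.range σ) : LF q) := by
  subst h
  rfl

variable (D : PlaceData K) (p : ℕ) [hp : Fact p.Prime]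

/-- the chosen embedding at a place above `p`, with values in `PadicAlgCl p`. -/
def repAbove (v : {v : HeightOneSpectrum (𝓞 K) // v ∈ above (K := K) p}) : K →+* PadicAlgCl p :=
  castEmb (ℓ_eq_of_mem D p ((mem_above p).mp v.2)) (D.σ v.1)

theorem norm_repAbove_le_one_iff (v : {v : HeightOneSpectrum (𝓞 K) // v ∈ above (K := K) p})
    (x : K) : ‖repAbove D p v x‖ ≤ 1 ↔ v.1.valuation K x ≤ 1 := by
  rw [repAbove, norm_castEmb]
  exact (D.le_one_iff v.1 x).symm

omit [NumberField K] in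
/-- strict form of an equivalence of unit balls. -/
theorem lt_one_iff_of_le_one_iff {Γ₀ Γ₁ : Type*} [LinearOrderedCommGroupWithZero Γ₀]
    [LinearOrderedCommGroupWithZero Γ₁] (w : Valuation K Γ₀) (w' : Valuation K Γ₁)
    (h : ∀ x : K, w x ≤ 1 ↔ w' x ≤ 1) (x : K) : w x < 1 ↔ w' x < 1 := by
  by_cases hx : x = 0
  · simp [hx]
  · have h1 := h x⁻¹
    rw [map_inv₀, map_inv₀] at h1
    have hw : 0 < w x := zero_lt_iff.mpr ((Valuation.ne_zero_iff _).mpr hx)
    have hw' : 0 < w' x := zero_lt_iff.mpr ((Valuation.ne_zero_iff _).mpr hx)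
    rw [inv_le_one₀ hw, inv_le_one₀ hw'] at h1
    constructor
    · intro h2
      by_contra h3
      rw [not_lt] at h3
      exact absurd (h1.mpr h3) (not_le.mpr h2)
    · intro h2
      by_contra h3
      rw [not_lt] at h3
      exact absurd (h1.mp h3) (not_le.mpr h2)

/-- a finite place is determined by its unit ball. -/
theorem heightOneSpectrum_ext_of_le_one_iff {v v' : HeightOneSpectrum (𝓞 K)}
    (h : ∀ x : K, v.valuation K x ≤ 1 ↔ v'.valuation K x ≤ 1) : v = v' := by
  apply HeightOneSpectrum.ext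
  ext x
  rw [← v.valuation_lt_one_iff_mem (K := K), ← v'.valuation_lt_one_iff_mem (K := K)]
  exact lt_one_iff_of_le_one_iff _ _ h _

/-- the place cut out by an embedding lies above `p`. -/
theorem mem_above_of_le_one_iff {σ : K →+* PadicAlgCl p} {v : HeightOneSpectrum (𝓞 K)}
    (h : ∀ x : K, ‖σ x‖ ≤ 1 ↔ v.valuation K x ≤ 1) : v ∈ above (K := K) p := by
  rw [mem_above]
  have h1 : ‖σ ((p : ℕ) : K)‖ < 1 := by
    rw [map_natCast]
    exact norm_q_lt_one
  have h2 : ¬ ‖σ (((p : ℕ) : K)⁻¹)‖ ≤ 1 := by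
    rw [map_inv₀, norm_inv, not_le]
    have hpos : 0 < ‖σ ((p : ℕ) : K)‖ := by
      rw [norm_pos_iff, map_natCast]
      exact Nat.cast_ne_zero.mpr hp.out.ne_zero
    exact (one_lt_inv₀ hpos).mpr h1
  have h3 : ¬ v.valuation K (((p : ℕ) : K)⁻¹) ≤ 1 := fun h4 => h2 ((h _).mpr h4)
  rw [map_inv₀, not_le] at h3
  have hp0 : v.valuation K ((p : ℕ) : K) ≠ 0 := by
    rw [Valuation.ne_zero_iff]
    exact Nat.cast_ne_zero.mpr hp.out.ne_zero
  have h4 : v.valuation K ((p : ℕ) : K) < 1 := by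
    by_contra h5
    rw [not_lt] at h5
    exact absurd ((inv_le_one₀ (zero_lt_iff.mpr hp0)).mpr h5) (not_le.mpr h3)
  have h5 : (((p : ℕ) : 𝓞 K) : K) = ((p : ℕ) : K) := by simp
  rw [← h5] at h4
  exact (v.valuation_lt_one_iff_mem _).mp h4

/-! ### the finite place cut out by a `p`-adic embedding (abstract `K`, bare ring hom) -/

section PlaceOfEmb

variable {p} (σ : K →+* PadicAlgCl p)

/-- the unit ball `{x | ‖σ x‖ ≤ 1}` as a valuation subring of `K`. -/
def ballOf : ValuationSubring K := (padicIntegers p).comap σ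

omit [NumberField K] in
theorem mem_ballOf_iff {x : K} : x ∈ ballOf σ ↔ ‖σ x‖ ≤ 1 := by
  rw [ballOf, ValuationSubring.mem_comap, mem_padicIntegers_iff, ← NNReal.coe_le_coe]
  simp

omit [NumberField K] in
theorem norm_le_one_of_isIntegral {x : K} (hx : IsIntegral ℤ x) : ‖σ x‖ ≤ 1 := by
  rw [← mem_ballOf_iff]
  have h1 : IsIntegral (ballOf σ) x := hx.tower_top
  obtain ⟨y, hy⟩ := IsIntegrallyClosed.algebraMap_eq_of_integral (R := ballOf σ) (K := K) h1
  rw [← hy]; exact y.2

omit [NumberField K] in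
theorem norm_natCast_p_lt_one : ‖σ ((p : ℕ) : K)‖ < 1 := by
  rw [map_natCast]
  exact norm_q_lt_one

omit [NumberField K] in
theorem ballOf_ne_top : ballOf σ ≠ ⊤ := by
  intro h
  have hmem : (((p : ℕ) : K))⁻¹ ∈ ballOf σ := by rw [h]; trivial
  rw [mem_ballOf_iff, map_inv₀, norm_inv] at hmem
  have h1 := norm_natCast_p_lt_one σ
  have hpos : 0 < ‖σ ((p : ℕ) : K)‖ := by
    rw [norm_pos_iff, map_natCast]
    exact Nat.cast_ne_zero.mpr hp.out.ne_zero
  exact absurd hmem (not_le.mpr ((one_lt_inv₀ hpos).mpr h1))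

omit [NumberField K] in
theorem norm_le_one_of_mem_ringOfIntegers (x : 𝓞 K) : ‖σ (x : K)‖ ≤ 1 :=
  norm_le_one_of_isIntegral σ (RingOfIntegers.isIntegral_coe x)

/-- the prime ideal `{x ∈ 𝓞 K | ‖σ x‖ < 1}`. -/
def primeIdealOf : Ideal (𝓞 K) where
  carrier := {x | ‖σ (x : K)‖ < 1}
  add_mem' := by
    intro a b ha hb
    change ‖σ (a : K)‖ < 1 at ha
    change ‖σ (b : K)‖ < 1 at hb
    change ‖σ ((a + b : 𝓞 K) : K)‖ < 1
    have hab : ((a + b : 𝓞 K) : K) = (a : K) + (b : K) := by push_cast; rfl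
    rw [hab, map_add]
    exact (IsUltrametricDist.norm_add_le_max _ _).trans_lt (max_lt ha hb)
  zero_mem' := by simp
  smul_mem' := by
    intro c x hx
    change ‖σ (x : K)‖ < 1 at hx
    change ‖σ ((c * x : 𝓞 K) : K)‖ < 1
    have hcx : ((c * x : 𝓞 K) : K) = (c : K) * (x : K) := by push_cast; rfl
    rw [hcx, map_mul, norm_mul]
    calc ‖σ (c : K)‖ * ‖σ (x : K)‖ ≤ 1 * ‖σ (x : K)‖ :=
          mul_le_mul_of_nonneg_right (norm_le_one_of_mem_ringOfIntegers σ c) (norm_nonneg _)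
      _ < 1 := by rw [one_mul]; exact hx

theorem mem_primeIdealOf_iff (x : 𝓞 K) : x ∈ primeIdealOf σ ↔ ‖σ (x : K)‖ < 1 := Iff.rfl

theorem natCast_mem_primeIdealOf : ((p : ℕ) : 𝓞 K) ∈ primeIdealOf σ := by
  rw [mem_primeIdealOf_iff]
  have h : ((((p : ℕ) : 𝓞 K)) : K) = ((p : ℕ) : K) := by simp
  rw [h]
  exact norm_natCast_p_lt_one σ

theorem primeIdealOf_isPrime : (primeIdealOf σ).IsPrime := by
  refine ⟨?_, ?_⟩
  · intro h
    have h1 : (1 : 𝓞 K) ∈ primeIdealOf σ := by rw [h]; trivial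
    rw [mem_primeIdealOf_iff] at h1
    simp at h1
  · intro x y hxy
    have hxy' : ((x * y : 𝓞 K) : K) = (x : K) * (y : K) := by push_cast; rfl
    rw [mem_primeIdealOf_iff, hxy', map_mul, norm_mul] at hxy
    by_contra hcon
    rw [not_or, mem_primeIdealOf_iff, mem_primeIdealOf_iff] at hcon
    have hx : ‖σ (x : K)‖ = 1 :=
      le_antisymm (norm_le_one_of_mem_ringOfIntegers σ x) (not_lt.1 hcon.1)
    have hy : ‖σ (y : K)‖ = 1 :=
      le_antisymm (norm_le_one_of_mem_ringOfIntegers σ y) (not_lt.1 hcon.2)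
    rw [hx, hy] at hxy
    simp at hxy

theorem primeIdealOf_ne_bot : primeIdealOf σ ≠ ⊥ := by
  intro h
  have h1 := natCast_mem_primeIdealOf σ
  rw [h, Ideal.mem_bot] at h1
  exact natCast_ne_zero' (K := K) p h1

/-- the finite place of `K` cut out by the `p`-adic embedding `σ`. -/
def placeOfEmb : HeightOneSpectrum (𝓞 K) :=
  ⟨primeIdealOf σ, primeIdealOf_isPrime σ, primeIdealOf_ne_bot σ⟩

theorem valuationSubringAtPrime_le_ballOf :
    HeightOneSpectrum.valuationSubringAtPrime K (placeOfEmb σ) ≤ ballOf σ := by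
  rintro x ⟨a, s, hs, rfl⟩
  rw [mem_ballOf_iff, map_mul, map_inv₀, norm_mul, norm_inv]
  have hs1 : ‖σ ((s : 𝓞 K) : K)‖ = 1 :=
    le_antisymm (norm_le_one_of_mem_ringOfIntegers σ s) (not_lt.1 hs)
  have ha : ‖σ ((a : 𝓞 K) : K)‖ ≤ 1 := norm_le_one_of_mem_ringOfIntegers σ a
  simpa [hs1] using ha

/-- **the unit ball of `σ` is the valuation ring of `placeOfEmb σ`.** -/
theorem norm_le_one_iff_valuation (x : K) :
    ‖σ x‖ ≤ 1 ↔ (placeOfEmb σ).valuation K x ≤ 1 := by
  have h : ((placeOfEmb σ).valuation K).valuationSubring = ballOf σ := by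
    rw [← HeightOneSpectrum.valuationSubringAtPrime_eq_valuationSubring]
    exact ValuationSubring.eq_of_le_of_ne_top _ (valuationSubringAtPrime_le_ballOf σ)
      (ballOf_ne_top σ)
  rw [← mem_ballOf_iff, ← h, Valuation.mem_valuationSubring_iff]

end PlaceOfEmb

/-- every `p`-adic embedding of `K` cuts out a finite place. -/
theorem exists_place_of_emb (σ : K →+* PadicAlgCl p) :
    ∃ v : HeightOneSpectrum (𝓞 K), ∀ x : K, ‖σ x‖ ≤ 1 ↔ v.valuation K x ≤ 1 :=
  ⟨placeOfEmb σ, norm_le_one_iff_valuation σ⟩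

/-- **the degree formula** `Σ_{v | p} [K_v : ℚ_p] = [K : ℚ]` for the place model, given that every
`p`-adic embedding of `K` cuts out a finite place (`hplace`; = `OrbitHyp39` (O1)). -/
theorem degreeFormula_of_place
    (hplace : ∀ σ : K →+* PadicAlgCl p, ∃ v : HeightOneSpectrum (𝓞 K),
      ∀ x : K, ‖σ x‖ ≤ 1 ↔ v.valuation K x ≤ 1) : DegreeFormula D p := by
  have key := EmbConj39.sum_finrank_locField_of_unitBall p (repAbove D p)
    (fun i j hij => by
      apply Subtype.ext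
      apply heightOneSpectrum_ext_of_le_one_iff
      intro x
      rw [← norm_repAbove_le_one_iff D p i, ← norm_repAbove_le_one_iff D p j]
      exact hij x)
    (fun σ => by
      obtain ⟨v, hv⟩ := hplace σ
      refine ⟨⟨v, mem_above_of_le_one_iff p hv⟩, fun x => ?_⟩
      rw [norm_repAbove_le_one_iff]
      exact hv x)
  rw [DegreeFormula, ← key, ← Finset.sum_coe_sort]
  refine Finset.sum_congr rfl (fun v _ => ?_)
  rw [repAbove, finrank_locField_castEmb]
  rfl

/-- **the degree formula** `Σ_{v | p} [K_v : ℚ_p] = [K : ℚ]` for the place model, unconditionally. -/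
theorem degreeFormula : DegreeFormula D p :=
  degreeFormula_of_place D p (exists_place_of_emb p)

/-- **(H3) `hprod`** of `SecondIneq74.relIndex_sup_dvd` for the place model, unconditionally. -/
theorem hprod' {ζ : K} (hζ : IsPrimitiveRoot ζ p) (hp2 : 2 < p)
    (S : Finset (V K)) (hSp : ∀ v : HeightOneSpectrum (𝓞 K), ((p : ℕ) : 𝓞 K) ∈ v.asIdeal →
      (Sum.inl v : V K) ∈ S) (hSinf : ∀ w : InfinitePlace K, (Sum.inr w : V K) ∈ S) :
    ∏ v ∈ S, (SecondIneq74.Pw (A D) p v).index = p ^ (2 * S.card) :=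
  hprod D p hζ hp2 (degreeFormula D p) S hSp hSinf

end Fermat.Agent.S55.SecondInst57
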